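import Fermat.Agent.Pic.Mk.Sections

/-!
# The regular locus of a separating function is affine and finite free over the line

On a smooth proper curve over an algebraically closed field, a function `z` whose differential
spans the differentials is transcendental (`transcendental_reg`). Its regular locus has
coordinate ring finite free over `k[z]` and Dedekind (`line_facts`), and is affine
(`isAffineOpen_regOpen`): basic subsets inside affine charts separate its points, and their
equations generate the unit ideal by the valuative criterion.
-/

set_option autoImplicit false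

noncomputable section

open CategoryTheory AlgebraicGeometry TopologicalSpace IsLocalRing Opposite

universe u

namespace FermatAgent.Pic.Mk

open FermatAgent.AV

section Field

variable {k F : Type u} [Field k] [Field F] [Algebra k F]

theorem transcendental_of_span_D [IsAlgClosed k] {z : F}
    (hz : Submodule.span F {KaehlerDifferential.D k F z} = ⊤) [Nontrivial Ω[F⁄k]] :
    Transcendental k z := by
  intro h
  obtain ⟨r, rfl⟩ : z ∈ (algebraMap k F).range :=
    h.isIntegral.mem_range_algebraMap_of_minpoly_splits (IsAlgClosed.splits _)
  rw [Derivation.map_algebraMap, Submodule.span_zero_singleton] at hz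
  exact bot_ne_top hz

end Field

variable {k : Type u} [Field k] [IsAlgClosed k] {C : Scheme.{u}} [IsIntegral C]
  (c : C ⟶ Spec (CommRingCat.of k)) [SmoothOfRelativeDimension 1 c] [IsProper c]
  [Algebra k C.functionField] (hf : algebraMap k C.functionField = Squeeze.baseMap c)
  (z : C.functionField)

/-- The function as a section on its regular locus. -/
def regSec : Γ(C, regOpen c z) :=
  (exists_section c (regOpen c z) (z := z) fun _ hx => hx).choose

omit [IsProper c] [Algebra k C.functionField] in
/-- The section of the regular locus is the function. -/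
theorem coe_regSec : C.germToFunctionField (regOpen c z) (regSec c z) = z :=
  (exists_section c (regOpen c z) (z := z) fun _ hx => hx).choose_spec

/-- The coordinate ring of the regular locus as an algebra over the constants. -/
@[reducible]
def regAlg : Algebra k Γ(C, regOpen c z) := (constHom c (regOpen c z)).toAlgebra

/-- The coordinate ring of the regular locus as an algebra over the line. -/
@[reducible]
def lineAlg : Algebra (Polynomial k) Γ(C, regOpen c z) :=
  letI := regAlg c z
  (Polynomial.aeval (R := k) (regSec c z)).toRingHom.toAlgebra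

/-- The function field as an algebra over the line. -/
@[reducible]
def lineAlgF : Algebra (Polynomial k) C.functionField :=
  (Polynomial.aeval (R := k) z).toRingHom.toAlgebra

omit [IsProper c] in
include hf in
theorem scalarTower_line :
    letI := lineAlg c z
    letI := lineAlgF z (k := k)
    IsScalarTower (Polynomial k) Γ(C, regOpen c z) C.functionField := by
  let := regAlg c z
  let := lineAlg c z
  let := lineAlgF z (k := k)
  have : IsScalarTower k Γ(C, regOpen c z) C.functionField :=
    IsScalarTower.of_algebraMap_eq' (algebraMap_comp_constHom c hf _).symm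
  refine IsScalarTower.of_algebraMap_eq fun P => ?_
  show Polynomial.aeval z P = algebraMap Γ(C, regOpen c z) C.functionField
    (Polynomial.aeval (regSec c z) P)
  rw [← Polynomial.aeval_algebraMap_apply,
    show algebraMap Γ(C, regOpen c z) C.functionField (regSec c z) = z from coe_regSec c z]

include hf in
theorem isIntegralClosure_line :
    letI := lineAlg c z
    letI := lineAlgF z (k := k)
    IsIntegralClosure Γ(C, regOpen c z) (Polynomial k) C.functionField := by
  let := lineAlg c z
  let := lineAlgF z (k := k)
  refine ⟨C.germToFunctionField_injective (regOpen c z), fun {w} => ⟨fun hw => ?_, ?_⟩⟩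
  · refine exists_section c (regOpen c z) fun x hx => ?_
    -- a valuation ring is integrally closed
    obtain ⟨P, hP, hP0⟩ := hw
    let ρ : Polynomial k →+* ptRing c x :=
      (algebraMap (Polynomial k) C.functionField).codRestrict (ptRing c x).toSubring fun Q => by
        show Polynomial.aeval z Q ∈ ptRing c x
        induction Q using Polynomial.induction_on' with
        | add a b ha hb => rw [map_add]; exact add_mem ha hb
        | monomial i a =>
          rw [Polynomial.aeval_monomial]
          exact mul_mem (algebraMap_mem_ptRing' c hf x a) (pow_mem ((mem_regOpen c).1 hx) i)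
    have hi : IsIntegral (ptRing c x) w := ⟨P.map ρ, hP.map ρ, by
      rw [Polynomial.eval₂_map]; exact hP0⟩
    obtain ⟨v, hv⟩ := IsIntegrallyClosed.isIntegral_iff.1 hi
    exact hv ▸ v.2
  · rintro ⟨s, rfl⟩
    refine FermatAgent.Curve.isIntegralElem_of_forall_valuationSubring _ fun W hW => ?_
    obtain ⟨x, hx⟩ := exists_ptRing_eq c W fun r => by
      rw [← hf, ← Polynomial.aeval_C z r]
      exact hW (Polynomial.C r)
    have hxU : x ∈ regOpen c z := (mem_regOpen c).2 (hx ▸ by
      rw [← Polynomial.aeval_X (R := k) z]
      exact hW Polynomial.X)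
    exact hx ▸ germ_mem_ptRing c _ s hxU

variable (hz : Submodule.span C.functionField {KaehlerDifferential.D k C.functionField z} = ⊤)

omit [IsProper c] in
include c hf hz in
/-- The function is transcendental over the constants. -/
theorem transcendental_reg : Transcendental k z := by
  have : Nontrivial Ω[C.functionField⁄k] :=
    Module.nontrivial_of_finrank_eq_succ (finrank_kaehler_functionField c hf 1)
  exact transcendental_of_span_D hz

include c hf hz in
/-- The coordinate ring is finite free over the line and a Dedekind domain. -/
theorem line_facts :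
    letI := lineAlg c z
    Module.Finite (Polynomial k) Γ(C, regOpen c z) ∧
      Module.Free (Polynomial k) Γ(C, regOpen c z) ∧ IsDedekindDomain Γ(C, regOpen c z) ∧
      IsFractionRing Γ(C, regOpen c z) C.functionField := by
  let := lineAlg c z
  let := lineAlgF z (k := k)
  have := scalarTower_line c hf z
  have := isIntegralClosure_line c hf z
  have hinj : Function.Injective (algebraMap (Polynomial k) C.functionField) :=
    transcendental_iff_injective.1 (transcendental_reg c hf z hz)
  have : FaithfulSMul (Polynomial k) C.functionField :=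
    (faithfulSMul_iff_algebraMap_injective _ _).2 hinj
  let := FractionRing.liftAlgebra (Polynomial k) C.functionField
  have : IsScalarTower k (Polynomial k) C.functionField :=
    IsScalarTower.of_algebraMap_eq fun r => (Polynomial.aeval_C (x := z) r).symm
  have : IsScalarTower k (FractionRing (Polynomial k)) C.functionField :=
    IsScalarTower.of_algebraMap_eq fun r => by
      rw [IsScalarTower.algebraMap_apply k (Polynomial k) C.functionField,
        IsScalarTower.algebraMap_apply k (Polynomial k) (FractionRing (Polynomial k)),
        ← IsScalarTower.algebraMap_apply (Polynomial k)]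
  have : Algebra.EssFiniteType k C.functionField := by
    have : Smooth c := SmoothOfRelativeDimension.smooth 1 c
    exact essFiniteType_functionField c hf
  have : Algebra.EssFiniteType (FractionRing (Polynomial k)) C.functionField :=
    Algebra.EssFiniteType.of_comp k _ _
  have h0 : Subsingleton Ω[C.functionField⁄Polynomial k] := by
    refine subsingleton_of_forall_eq 0 fun w => ?_
    obtain ⟨v, rfl⟩ := KaehlerDifferential.map_surjective k (Polynomial k) C.functionField w
    obtain ⟨a, rfl⟩ := Submodule.mem_span_singleton.1 (hz ▸ (Submodule.mem_top : v ∈ ⊤))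
    rw [map_smul, KaehlerDifferential.map_D]
    have : algebraMap C.functionField C.functionField z =
        algebraMap (Polynomial k) C.functionField Polynomial.X := by
      show z = Polynomial.aeval z Polynomial.X
      rw [Polynomial.aeval_X]
    rw [this, Derivation.map_algebraMap, smul_zero]
  have : Algebra.FormallyUnramified (FractionRing (Polynomial k)) C.functionField := by
    constructor
    exact (KaehlerDifferential.map_surjective (Polynomial k) (FractionRing (Polynomial k))
      C.functionField).subsingleton
  have hsep : Algebra.IsSeparable (FractionRing (Polynomial k)) C.functionField :=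
    Algebra.FormallyUnramified.isSeparable _ _
  have : FiniteDimensional (FractionRing (Polynomial k)) C.functionField :=
    Algebra.finite_of_essFiniteType_of_isAlgebraic
  have hfin : Module.Finite (Polynomial k) Γ(C, regOpen c z) :=
    IsIntegralClosure.finite (Polynomial k) (FractionRing (Polynomial k)) C.functionField _
  have : FaithfulSMul (Polynomial k) Γ(C, regOpen c z) :=
    (faithfulSMul_iff_algebraMap_injective _ _).2 (Function.Injective.of_comp
      (f := algebraMap Γ(C, regOpen c z) C.functionField) (by
        rw [← RingHom.coe_comp, ← IsScalarTower.algebraMap_eq]; exact hinj))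
  refine ⟨hfin, inferInstance,
    IsIntegralClosure.isDedekindDomain (Polynomial k) (FractionRing (Polynomial k))
      C.functionField _,
    IsIntegralClosure.isFractionRing_of_finite_extension (Polynomial k)
      (FractionRing (Polynomial k)) C.functionField _⟩

/-- The ideal of functions vanishing at a point. -/
def ptIdeal {x : C} (hx : x ∈ regOpen c z) : Ideal Γ(C, regOpen c z) :=
  (maximalIdeal (C.presheaf.stalk x)).comap (C.presheaf.germ (regOpen c z) x hx).hom

instance {x : C} (hx : x ∈ regOpen c z) : (ptIdeal c z hx).IsPrime :=
  Ideal.IsPrime.comap _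

omit [IsProper c] [Algebra k C.functionField] in
/-- A section is outside the ideal of a point iff the point lies in its basic open. -/
theorem notMem_ptIdeal {x : C} (hx : x ∈ regOpen c z) {s : Γ(C, regOpen c z)} :
    s ∉ ptIdeal c z hx ↔ x ∈ C.basicOpen s := by
  rw [C.mem_basicOpen s x hx, ptIdeal, Ideal.mem_comap]
  exact IsLocalRing.notMem_maximalIdeal

omit [IsProper c] [Algebra k C.functionField] in
/-- The inverse of a section not vanishing at a point is regular there. -/
theorem inv_germ_mem {x : C} (hx : x ∈ regOpen c z) {s : Γ(C, regOpen c z)}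
    (hs : s ∉ ptIdeal c z hx) :
    (C.germToFunctionField (regOpen c z) s)⁻¹ ∈ ptRing c x := by
  obtain ⟨t, ht⟩ := ((C.mem_basicOpen s x hx).1 ((notMem_ptIdeal c z hx).1 hs)).exists_right_inv
  refine (mem_ptRing c).2 ⟨t, (inv_eq_of_mul_eq_one_right ?_).symm⟩
  rw [← C.algebraMap_germ_eq_germToFunctionField hx s, ← map_mul, ht, map_one]

include c hf hz in
theorem ptIdeal_ne_bot {x : C} (hx : x ∈ regOpen c z) (hne : x ≠ genericPoint C) :
    ptIdeal c z hx ≠ ⊥ := by
  obtain ⟨-, -, -, hfr⟩ := line_facts c hf z hz
  intro h
  refine hne (ptRing_injective c ?_)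
  rw [ptRing_genericPoint]
  refine top_le_iff.1 fun w _ => ?_
  obtain ⟨a, b, hb, rfl⟩ := IsFractionRing.div_surjective (A := Γ(C, regOpen c z)) w
  rw [div_eq_mul_inv]
  refine mul_mem (germ_mem_ptRing c _ a hx) (inv_germ_mem c z hx ?_)
  rw [h, Ideal.mem_bot]
  exact nonZeroDivisors.ne_zero hb

include c hf hz in
theorem ptRing_le_of_ptIdeal_eq {x y : C} (hx : x ∈ regOpen c z) (hy : y ∈ regOpen c z)
    (h : ptIdeal c z hx = ptIdeal c z hy) : ptRing c x ≤ ptRing c y := by
  obtain ⟨-, -, hD, hfr⟩ := line_facts c hf z hz
  intro v hv
  obtain ⟨a, b, hb, rfl⟩ := IsFractionRing.div_surjective (A := Γ(C, regOpen c z)) v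
  have hb0 : algebraMap Γ(C, regOpen c z) C.functionField b ≠ 0 :=
    (map_ne_zero_iff _ (IsFractionRing.injective _ _)).2 (nonZeroDivisors.ne_zero hb)
  by_cases hbot : ptIdeal c z hx = ⊥
  · rw [div_eq_mul_inv]
    refine mul_mem (germ_mem_ptRing c _ a hy) (inv_germ_mem c z hy ?_)
    rw [← h, hbot, Ideal.mem_bot]
    exact nonZeroDivisors.ne_zero hb
  let O := Localization.AtPrime (ptIdeal c z hx)
  have : IsDiscreteValuationRing O :=
    IsLocalization.AtPrime.isDiscreteValuationRing_of_dedekind_domain Γ(C, regOpen c z) hbot O
  -- some multiple of one is a multiple of the other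
  have key : ∀ p q : Γ(C, regOpen c z), algebraMap _ O p ∣ algebraMap _ O q →
      ∃ s e : Γ(C, regOpen c z), s ∉ ptIdeal c z hx ∧ s * q = e * p := by
    rintro p q ⟨w, hw⟩
    obtain ⟨⟨e, s⟩, hes⟩ := IsLocalization.surj (ptIdeal c z hx).primeCompl w
    obtain ⟨u, hu⟩ := (IsLocalization.eq_iff_exists (ptIdeal c z hx).primeCompl O).1
      (show algebraMap _ O ((s : Γ(C, regOpen c z)) * q) = algebraMap _ O (e * p) by
        rw [map_mul, map_mul, hw, ← hes]; ring)
    exact ⟨u * s, u * e, (u * s).2, by rw [mul_assoc, hu, mul_assoc]⟩
  rcases ValuationRing.dvd_total (algebraMap Γ(C, regOpen c z) O b) (algebraMap _ O a) with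
    hd | hd
  · obtain ⟨s, e, hs, hse⟩ := key b a hd
    have hs' : s ∉ ptIdeal c z hy := h ▸ hs
    have e1 : algebraMap Γ(C, regOpen c z) C.functionField a / algebraMap _ _ b =
        algebraMap _ _ e * (algebraMap _ _ s)⁻¹ := by
      have hs0 : algebraMap Γ(C, regOpen c z) C.functionField s ≠ 0 :=
        (map_ne_zero_iff _ (IsFractionRing.injective _ _)).2 fun h0 => hs (h0 ▸ zero_mem _)
      rw [div_eq_iff hb0, mul_right_comm, eq_mul_inv_iff_mul_eq₀ hs0, ← map_mul, ← map_mul,
        mul_comm a s, hse]
    rw [e1]
    exact mul_mem (germ_mem_ptRing c _ e hy) (inv_germ_mem c z hy hs')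
  · obtain ⟨s, e, hs, hse⟩ := key a b hd
    by_cases ha : a = 0
    · rw [ha, map_zero, zero_div]; exact zero_mem _
    have ha0 : algebraMap Γ(C, regOpen c z) C.functionField a ≠ 0 :=
      (map_ne_zero_iff _ (IsFractionRing.injective _ _)).2 ha
    have he0 : e ≠ 0 := fun h0 => by
      rw [h0, zero_mul, mul_eq_zero] at hse
      exact hse.elim (fun h1 => hs (h1 ▸ zero_mem _)) (nonZeroDivisors.ne_zero hb)
    have he' : algebraMap Γ(C, regOpen c z) C.functionField e ≠ 0 :=
      (map_ne_zero_iff _ (IsFractionRing.injective _ _)).2 he0
    have e1 : algebraMap Γ(C, regOpen c z) C.functionField a / algebraMap _ _ b =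
        algebraMap _ _ s * (algebraMap _ _ e)⁻¹ := by
      rw [div_eq_iff hb0, mul_right_comm, eq_mul_inv_iff_mul_eq₀ he', ← map_mul, ← map_mul,
        mul_comm a e, ← hse]
    by_cases he : e ∈ ptIdeal c z hx
    · exfalso
      -- the function would have a pole at the point
      obtain ⟨t, ht⟩ := (mem_ptRing c).1 hv
      refine hs ?_
      have e2 : C.presheaf.germ (regOpen c z) x hx s =
          C.presheaf.germ (regOpen c z) x hx e * t := by
        apply IsFractionRing.injective (C.presheaf.stalk x) C.functionField
        rw [map_mul, ht, C.algebraMap_germ_eq_germToFunctionField hx,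
          C.algebraMap_germ_eq_germToFunctionField hx]
        show algebraMap Γ(C, regOpen c z) C.functionField s = algebraMap _ _ e * _
        rw [e1, mul_left_comm, mul_inv_cancel₀ he', mul_one]
      rw [ptIdeal, Ideal.mem_comap]
      exact e2 ▸ Ideal.mul_mem_right t _ (Ideal.mem_comap.1 he)
    · rw [e1]
      exact mul_mem (germ_mem_ptRing c _ s hy) (inv_germ_mem c z hy (h ▸ he))

include c hf hz in
/-- **The regular locus is affine.** -/
theorem isAffineOpen_regOpen : IsAffineOpen (regOpen c z) := by
  classical
  obtain ⟨-, -, hD, hfr⟩ := line_facts c hf z hz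
  set U := regOpen c z
  have hsep : ∀ x (hx : x ∈ U), ∃ g : Γ(C, U), g ∉ ptIdeal c z hx ∧
      IsAffineOpen (C.basicOpen g) := by
    intro x hx
    obtain ⟨W, hW, hxW, hWU⟩ := exists_isAffineOpen_mem_and_subset (X := C) (U := U) hx
    have hfin : ((W : Set C)ᶜ).Finite := finite_of_isClosed c W.isOpen.isClosed_compl
      fun h => h (((genericPoint_spec C).mem_open_set_iff W.isOpen).2 ⟨x, trivial, hxW⟩)
    have : ∀ q : {q : C // q ∈ (U : Set C) ∧ q ∉ (W : Set C)},
        ∃ g : Γ(C, U), g ∈ ptIdeal c z q.2.1 ∧ g ∉ ptIdeal c z hx := by
      rintro ⟨q, hqU, hqW⟩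
      refine Set.not_subset.1 fun hle => ?_
      have hqη : q ≠ genericPoint C := fun e => hqW
        (e ▸ ((genericPoint_spec C).mem_open_set_iff W.isOpen).2 ⟨x, trivial, hxW⟩)
      have hmax : (ptIdeal c z hqU).IsMaximal :=
        (inferInstance : (ptIdeal c z hqU).IsPrime).isMaximal (ptIdeal_ne_bot c hf z hz hqU hqη)
      have he := hmax.eq_of_le (inferInstance : (ptIdeal c z hx).IsPrime).ne_top hle
      have : q = x := ptRing_injective c (le_antisymm
        (ptRing_le_of_ptIdeal_eq c hf z hz hqU hx he)
        (ptRing_le_of_ptIdeal_eq c hf z hz hx hqU he.symm))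
      exact hqW (this ▸ hxW)
    choose g hg hgx using this
    have : Finite {q : C // q ∈ (U : Set C) ∧ q ∉ (W : Set C)} :=
      (hfin.subset fun q hq => hq.2).to_subtype
    let _ := Fintype.ofFinite {q : C // q ∈ (U : Set C) ∧ q ∉ (W : Set C)}
    refine ⟨∏ q, g q, fun h => ?_, ?_⟩
    · obtain ⟨q, -, hq⟩ := (Ideal.IsPrime.prod_mem_iff).1 h
      exact hgx q hq
    · have hle : C.basicOpen (∏ q, g q) ≤ W := fun q hq => by
        by_contra hqW
        have hqU : q ∈ U := C.basicOpen_le _ hq
        exact (notMem_ptIdeal c z hqU).2 hq (Ideal.mem_of_dvd _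
          (Finset.dvd_prod_of_mem g (Finset.mem_univ ⟨q, hqU, hqW⟩)) (hg ⟨q, hqU, hqW⟩))
      have e : C.basicOpen (∏ q, g q) =
          C.basicOpen (C.presheaf.map (homOfLE (show W ≤ U from hWU)).op (∏ q, g q)) := by
        rw [Scheme.basicOpen_res]
        exact (inf_eq_right.2 hle).symm
      rw [e]
      exact hW.basicOpen _
  choose g hg haff using hsep
  refine isAffineOpen_of_isAffineOpen_basicOpen U (Set.range fun x : U => g x.1 x.2) ?_ ?_
  · by_contra hne
    obtain ⟨M, hM, hle⟩ := Ideal.exists_le_maximal _ hne
    let _ : Algebra (Localization.AtPrime M) C.functionField :=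
      (IsLocalization.lift (M := M.primeCompl) (S := Localization.AtPrime M)
        (g := algebraMap Γ(C, U) C.functionField) fun s => by
          refine isUnit_iff_ne_zero.2 ((map_ne_zero_iff _ (IsFractionRing.injective _ _)).2 ?_)
          exact fun h0 => s.2 (h0 ▸ zero_mem M)).toAlgebra
    obtain ⟨V, hV, hVloc⟩ := IsLocalRing.exists_factor_valuationRing
      (algebraMap (Localization.AtPrime M) C.functionField)
    have hBV : ∀ s : Γ(C, U), algebraMap Γ(C, U) C.functionField s =
        algebraMap (Localization.AtPrime M) C.functionField (algebraMap _ _ s) := fun s =>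
      (IsLocalization.lift_eq (M := M.primeCompl) (S := Localization.AtPrime M) _ s).symm
    obtain ⟨x, hx⟩ := exists_ptRing_eq c V fun r => by
      have e : Squeeze.baseMap c r = algebraMap Γ(C, U) C.functionField (constHom c U r) := by
        rw [← hf]; exact (RingHom.congr_fun (algebraMap_comp_constHom c hf U) r).symm
      rw [e, hBV]; exact hV _
    have hxU : x ∈ U := by
      rw [mem_regOpen, hx, ← coe_regSec c z]
      exact (hBV _).symm ▸ hV _
    refine hg x hxU ?_
    have hgM : g x hxU ∈ M := hle (Ideal.subset_span ⟨⟨x, hxU⟩, rfl⟩)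
    by_contra hgx
    have h1 := inv_germ_mem c z hxU hgx
    rw [hx] at h1
    have hloc : g x hxU ∉ M := by
      intro _
      have hm : algebraMap Γ(C, U) (Localization.AtPrime M) (g x hxU) ∈
          maximalIdeal (Localization.AtPrime M) :=
        (IsLocalization.AtPrime.to_map_mem_maximal_iff _ M _).2 hgM
      have hu : IsUnit ((algebraMap (Localization.AtPrime M) C.functionField).codRestrict
          V.toSubring hV (algebraMap Γ(C, U) _ (g x hxU))) := by
        refine IsUnit.of_mul_eq_one ⟨_, h1⟩ (Subtype.ext ?_)
        show algebraMap (Localization.AtPrime M) C.functionField _ * _ = 1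
        rw [← hBV]
        refine mul_inv_cancel₀ ((map_ne_zero_iff _ (IsFractionRing.injective _ _)).2 ?_)
        exact fun h0 => hgx (h0 ▸ zero_mem _)
      exact (mem_maximalIdeal _).1 hm (hVloc.map_nonunit _ hu)
    exact hloc hgM
  · rintro _ ⟨x, rfl⟩
    exact haff x.1 x.2

end FermatAgent.Pic.Mk

end
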