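import Fermat.Agent.Pic.Pres
import Fermat.Agent.Pic.Mk.Affine

/-!
# Every pointed curve has a two-chart presentation

With `t` a uniformiser at the marked point the charts are the regular loci of `1 / t` and `t`.
-/

set_option autoImplicit false

noncomputable section

open CategoryTheory CategoryTheory.Limits AlgebraicGeometry TopologicalSpace IsLocalRing Opposite
  NeronModelInfra

universe u

namespace FermatAgent.Pic.Mk

open FermatAgent.AV

variable {k : Type u} [Field k] [IsAlgClosed k] {C : Scheme.{u}} [IsIntegral C]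
  (c : C ⟶ Spec (CommRingCat.of k)) [SmoothOfRelativeDimension 1 c] [IsProper c]
  [Algebra k C.functionField] (hf : algebraMap k C.functionField = Squeeze.baseMap c)

include c hf in
/-- A uniformiser at a closed point. -/
theorem exists_uniformizer {x : C} (hx : IsClosed ({x} : Set C)) :
    ∃ (t : C.functionField) (τ : C.presheaf.stalk x),
      algebraMap _ C.functionField τ = t ∧ τ ∈ maximalIdeal (C.presheaf.stalk x) ∧ t ≠ 0 ∧
      Submodule.span C.functionField {KaehlerDifferential.D k C.functionField t} = ⊤ := by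
  let _ : Algebra k (C.presheaf.stalk x) := (stalkConst c x).toAlgebra
  obtain ⟨hprin, hspan⟩ := stalk_differential c hx rfl
  obtain ⟨τ, hτ'⟩ := hprin
  have hτ : maximalIdeal (C.presheaf.stalk x) = Ideal.span {τ} := hτ'
  have hxη : x ≠ genericPoint C := fun e => not_isClosed_genericPoint c hf (e ▸ hx)
  have hτ0 : τ ≠ 0 := by
    rintro rfl
    refine hxη (ptRing_injective c ?_)
    rw [ptRing_genericPoint]
    refine top_le_iff.1 fun w _ => ?_
    obtain ⟨a, b, hb, rfl⟩ := IsFractionRing.div_surjective (A := C.presheaf.stalk x) w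
    have hu : IsUnit b := by
      by_contra hu
      have := (mem_maximalIdeal b).2 hu
      rw [hτ, Ideal.span_singleton_eq_bot.2 rfl, Ideal.mem_bot] at this
      exact nonZeroDivisors.ne_zero hb this
    obtain ⟨b', hb'⟩ := hu.exists_right_inv
    refine ⟨a * b', ?_⟩
    rw [map_mul, div_eq_mul_inv]
    congr 1
    exact eq_inv_of_mul_eq_one_right (by rw [← map_mul, hb', map_one])
  have : IsScalarTower k (C.presheaf.stalk x) C.functionField := by
    refine IsScalarTower.of_algebraMap_eq fun r => ?_
    rw [hf, ← stalkConst_genericPoint]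
    have : Nonempty (⊤ : C.Opens) := ⟨⟨x, trivial⟩⟩
    exact (C.algebraMap_germ_eq_germToFunctionField (U := ⊤) (x := x) trivial _).symm
  have : Algebra.FormallyEtale (C.presheaf.stalk x) C.functionField :=
    Algebra.FormallyEtale.of_isLocalization (nonZeroDivisors (C.presheaf.stalk x))
  refine ⟨_, τ, rfl, hτ ▸ Ideal.mem_span_singleton_self τ,
    (map_ne_zero_iff _ (IsFractionRing.injective _ _)).2 hτ0, eq_top_iff.2 fun w _ => ?_⟩
  obtain ⟨v, rfl⟩ := (KaehlerDifferential.tensorKaehlerEquivOfFormallyEtale k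
    (C.presheaf.stalk x) C.functionField).surjective w
  induction v using TensorProduct.induction_on with
  | zero => rw [map_zero]; exact zero_mem _
  | add a b ha hb => rw [map_add]; exact add_mem (ha trivial) (hb trivial)
  | tmul e d =>
    obtain ⟨r, rfl⟩ := Submodule.mem_span_singleton.1
      ((hspan τ hτ hτ0).symm ▸ (Submodule.mem_top : d ∈ ⊤))
    rw [KaehlerDifferential.tensorKaehlerEquivOfFormallyEtale_apply,
      KaehlerDifferential.mapBaseChange_tmul, map_smul, KaehlerDifferential.map_D,
      ← algebraMap_smul C.functionField r, smul_smul]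
    exact Submodule.smul_mem _ _ (Submodule.mem_span_singleton_self _)

omit [IsAlgClosed k] in
theorem span_D_inv {t : C.functionField} (ht : t ≠ 0)
    (h : Submodule.span C.functionField {KaehlerDifferential.D k C.functionField t} = ⊤) :
    Submodule.span C.functionField {KaehlerDifferential.D k C.functionField t⁻¹} = ⊤ := by
  rw [Derivation.leibniz_inv, Submodule.span_singleton_smul_eq
    (isUnit_iff_ne_zero.2 (neg_ne_zero.2 (pow_ne_zero 2 (inv_ne_zero ht)))), h]

omit [Algebra k C.functionField] in
include c in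
/-- A generator of the ideal of a rational point, in the local ring. -/
theorem exists_cot {U : C.Opens} (hU : IsAffineOpen U) [Algebra k Γ(C, U)] [Nonempty U]
    (hne : ∀ P : Γ(C, U) →ₐ[k] k, RingHom.ker P ≠ ⊥) (P : Γ(C, U) →ₐ[k] k) :
    ∃ t : Γ(C, U), P t = 0 ∧ ∀ r : Γ(C, U), P r = 0 →
      ∃ a s : Γ(C, U), P s ≠ 0 ∧ s * r = a * t := by
  have : (RingHom.ker P).IsMaximal := RingHom.ker_isMaximal_of_surjective P fun r =>
    ⟨algebraMap k _ r, P.commutes r⟩
  set p : PrimeSpectrum Γ(C, U) := ⟨RingHom.ker P, inferInstance⟩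
  set x := hU.fromSpec p
  have hxU : x ∈ U := by
    show x ∈ (U : Set C)
    rw [← hU.range_fromSpec]
    exact Set.mem_range_self _
  have hp : hU.primeIdealOf ⟨x, hxU⟩ = p :=
    hU.fromSpec.isOpenEmbedding.injective (hU.fromSpec_primeIdealOf ⟨x, hxU⟩)
  have hxη : x ≠ genericPoint C := by
    intro e
    refine hne P ?_
    have h1 : hU.primeIdealOf ⟨genericPoint C, e ▸ hxU⟩ = p := by
      rw [← hp]; congr 1; exact Subtype.ext e.symm
    have h2 := hU.primeIdealOf_genericPoint
    rw [h1, genericPoint_eq_bot_of_affine] at h2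
    exact congrArg PrimeSpectrum.asIdeal h2
  have hx := isClosed_of_ne_genericPoint c hxη
  let _ : Algebra k (C.presheaf.stalk x) := (stalkConst c x).toAlgebra
  obtain ⟨τ, hτ'⟩ := (stalk_differential c hx rfl).1
  have hτ : maximalIdeal (C.presheaf.stalk x) = Ideal.span {τ} := hτ'
  let _ : Algebra Γ(C, U) (C.presheaf.stalk x) := C.presheaf.algebra_section_stalk ⟨x, hxU⟩
  have : IsLocalization.AtPrime (C.presheaf.stalk x) p.asIdeal := by
    have key : ∀ q : PrimeSpectrum Γ(C, U), hU.primeIdealOf ⟨x, hxU⟩ = q →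
        IsLocalization.AtPrime (C.presheaf.stalk x) q.asIdeal := by
      rintro _ rfl; exact hU.isLocalization_stalk ⟨x, hxU⟩
    exact key p hp
  obtain ⟨⟨a, s⟩, has⟩ := IsLocalization.surj p.asIdeal.primeCompl τ
  have hunit : IsUnit (algebraMap Γ(C, U) (C.presheaf.stalk x) s) := IsLocalization.map_units _ s
  have ha : P a = 0 := by
    have hm : algebraMap Γ(C, U) (C.presheaf.stalk x) a ∈ maximalIdeal (C.presheaf.stalk x) := by
      rw [← has]
      exact Ideal.mul_mem_right _ _ (hτ ▸ Ideal.mem_span_singleton_self τ)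
    exact (IsLocalization.AtPrime.to_map_mem_maximal_iff _ p.asIdeal a).1 hm
  refine ⟨a, ha, fun r hr => ?_⟩
  have hm : algebraMap Γ(C, U) (C.presheaf.stalk x) r ∈ maximalIdeal (C.presheaf.stalk x) :=
    (IsLocalization.AtPrime.to_map_mem_maximal_iff _ p.asIdeal r).2 hr
  rw [hτ, Ideal.mem_span_singleton] at hm
  obtain ⟨w, hw⟩ := hm
  obtain ⟨⟨b, s'⟩, hbs⟩ := IsLocalization.surj p.asIdeal.primeCompl w
  obtain ⟨u, hu⟩ := (IsLocalization.eq_iff_exists p.asIdeal.primeCompl (C.presheaf.stalk x)).1
    (show algebraMap Γ(C, U) (C.presheaf.stalk x) ((s : Γ(C, U)) * s' * r) =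
        algebraMap _ _ (b * a) by
      rw [map_mul, map_mul, map_mul, hw, ← hbs, ← has]; ring)
  refine ⟨u * b, u * s * s', ?_, ?_⟩
  · exact fun h => (mul_mem (mul_mem u.2 s.2) s'.2 :
      (u : Γ(C, U)) * s * s' ∈ p.asIdeal.primeCompl) h
  · rw [mul_assoc (u : Γ(C, U)) b a, ← hu]; ring

variable (t : C.functionField)

section

omit [IsProper c] [Algebra k C.functionField]

theorem basicOpen_regSec (ht : t ≠ 0) :
    regOpen c t ⊓ regOpen c t⁻¹ = C.basicOpen (regSec c t) := by
  ext x
  constructor
  · rintro ⟨hx, hx'⟩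
    rw [SetLike.mem_coe, C.mem_basicOpen _ x hx]
    have e := C.algebraMap_germ_eq_germToFunctionField hx (regSec c t)
    rw [coe_regSec] at e
    refine isUnit_of_algebraMap_inv_mem c (fun h0 => ht (by rw [← e, h0, map_zero])) ?_
    have h := (mem_regOpen c).1 hx'
    exact (congrArg (fun w => w⁻¹ ∈ ptRing c x) e).mpr h
  · intro hx
    have hxU := C.basicOpen_le _ hx
    refine ⟨hxU, ?_⟩
    have h := inv_germ_mem c t hxU ((notMem_ptIdeal c t hxU).2 hx)
    rwa [coe_regSec] at h

include c in
theorem regSec_mul (ht : t ≠ 0) :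
    C.presheaf.map (homOfLE (inf_le_left : regOpen c t⁻¹ ⊓ regOpen c t ≤ regOpen c t⁻¹)).op
        (regSec c t⁻¹) *
      C.presheaf.map (homOfLE (inf_le_right : regOpen c t⁻¹ ⊓ regOpen c t ≤ regOpen c t)).op
        (regSec c t) = 1 := by
  have : Nonempty (regOpen c t⁻¹ ⊓ regOpen c t : C.Opens) :=
    ⟨⟨genericPoint C, genericPoint_mem_regOpen c _, genericPoint_mem_regOpen c _⟩⟩
  apply C.germToFunctionField_injective (regOpen c t⁻¹ ⊓ regOpen c t)
  rw [map_mul, map_one]
  refine (congrArg₂ (· * ·) ((germToFunctionField_res inf_le_left _).trans (coe_regSec c _))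
    ((germToFunctionField_res inf_le_right _).trans (coe_regSec c _))).trans ?_
  exact inv_mul_cancel₀ ht

include c in
theorem cover_regOpen : (regOpen c t⁻¹ : Set C) ∪ regOpen c t = Set.univ :=
  Set.eq_univ_of_forall fun x => ((ptRing c x).mem_or_inv_mem t).symm

end

include c hf in
theorem fin_regOpen {z : C.functionField}
    (hz : Submodule.span C.functionField {KaehlerDifferential.D k C.functionField z} = ⊤) :
    letI := regAlg c z
    ∃ (d : ℕ) (b : Fin d → Γ(C, regOpen c z)), ∀ r : Γ(C, regOpen c z),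
      ∃! a : Fin d → Polynomial k, r = ∑ i, Polynomial.aeval (regSec c z) (a i) * b i := by
  let := regAlg c z
  let := lineAlg c z
  obtain ⟨hfin, hfree, -, -⟩ := line_facts c hf z hz
  let b := Module.Free.chooseBasis (Polynomial k) Γ(C, regOpen c z)
  let e := Fintype.equivFin (Module.Free.ChooseBasisIndex (Polynomial k) Γ(C, regOpen c z))
  refine ⟨_, b.reindex e, fun r => ⟨(b.reindex e).equivFun r, ?_, fun a ha => ?_⟩⟩
  · exact ((b.reindex e).sum_equivFun r).symm
  · apply (b.reindex e).equivFun.symm.injective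
    rw [LinearEquiv.symm_apply_apply, Module.Basis.equivFun_symm_apply]
    exact ha.symm

omit [IsProper c] in
include c hf in
theorem ker_ne_bot_regOpen {z : C.functionField}
    (hz : Submodule.span C.functionField {KaehlerDifferential.D k C.functionField z} = ⊤) :
    letI := regAlg c z
    ∀ P : Γ(C, regOpen c z) →ₐ[k] k, RingHom.ker P ≠ ⊥ := by
  let := regAlg c z
  intro P h
  have hinj : Function.Injective P := (RingHom.injective_iff_ker_eq_bot P).2 h
  have e : regSec c z = algebraMap k _ (P (regSec c z)) := hinj (P.commutes _).symm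
  have h1 := congrArg (C.germToFunctionField (regOpen c z)) e
  rw [coe_regSec] at h1
  refine transcendental_reg c hf z hz ?_
  rw [h1]
  have h2 : C.germToFunctionField (regOpen c z) (algebraMap k _ (P (regSec c z))) =
      algebraMap k C.functionField (P (regSec c z)) :=
    RingHom.congr_fun (algebraMap_comp_constHom c hf (regOpen c z)) _
  rw [h2]
  exact isAlgebraic_algebraMap _

include c hf in
/-- The two-chart curve of a uniformiser. -/
theorem exists_pres_of_uniformizer (ε : SchemeHomOver (𝟙 (Spec (CommRingCat.of k))) c)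
    (ht : t ≠ 0)
    (hz : Submodule.span C.functionField {KaehlerDifferential.D k C.functionField t} = ⊤)
    (τ : C.presheaf.stalk (ε.1 (closedPoint k))) (hτ : algebraMap _ C.functionField τ = t)
    (hτm : τ ∈ maximalIdeal (C.presheaf.stalk (ε.1 (closedPoint k)))) :
    Nonempty (Pres c ε) := by
  set U0 := regOpen c t⁻¹ with hU0def
  set U1 := regOpen c t with hU1def
  have hz0 := span_D_inv ht hz
  have hU0 : IsAffineOpen U0 := isAffineOpen_regOpen c hf _ hz0
  have hU1 : IsAffineOpen U1 := isAffineOpen_regOpen c hf _ hz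
  have hb0 : U0 ⊓ U1 = C.basicOpen (regSec c t⁻¹) := by
    have := basicOpen_regSec c t⁻¹ (inv_ne_zero ht)
    rwa [inv_inv] at this
  have hb1 : U0 ⊓ U1 = C.basicOpen (regSec c t) := by
    rw [inf_comm]; exact basicOpen_regSec c t ht
  have hU01 : IsAffineOpen (U0 ⊓ U1) := hb0 ▸ hU0.basicOpen _
  have : Nonempty (U0 ⊓ U1 : C.Opens) :=
    ⟨⟨genericPoint C, genericPoint_mem_regOpen c _, genericPoint_mem_regOpen c _⟩⟩
  let a0 : Algebra k Γ(C, U0) := regAlg c t⁻¹
  let a1 : Algebra k Γ(C, U1) := regAlg c t
  let a01 : Algebra k Γ(C, U0 ⊓ U1) := (constHom c (U0 ⊓ U1)).toAlgebra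
  let t0 : Algebra Γ(C, U0) Γ(C, U0 ⊓ U1) :=
    (C.presheaf.map (homOfLE inf_le_left).op).hom.toAlgebra
  let t1 : Algebra Γ(C, U1) Γ(C, U0 ⊓ U1) :=
    (C.presheaf.map (homOfLE inf_le_right).op).hom.toAlgebra
  have : IsScalarTower k Γ(C, U0) Γ(C, U0 ⊓ U1) :=
    IsScalarTower.of_algebraMap_eq' (constHom_res c inf_le_left).symm
  have : IsScalarTower k Γ(C, U1) Γ(C, U0 ⊓ U1) :=
    IsScalarTower.of_algebraMap_eq' (constHom_res c inf_le_right).symm
  let X : Curve2 k :=
    { R0 := Γ(C, U0)
      R1 := Γ(C, U1)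
      R01 := Γ(C, U0 ⊓ U1)
      x := regSec c t⁻¹
      y := regSec c t
      loc0 := hU0.isLocalization_of_eq_basicOpen _ (homOfLE inf_le_left) hb0
      loc1 := hU1.isLocalization_of_eq_basicOpen _ (homOfLE inf_le_right) hb1
      xy := regSec_mul c t ht
      inj0 := map_injective_of_isIntegral C (homOfLE inf_le_left)
      inj1 := map_injective_of_isIntegral C (homOfLE inf_le_right)
      fin0 := fin_regOpen c hf hz0
      fin1 := fin_regOpen c hf hz
      glob := fun a b hab => by
        have hab' := congrArg (C.germToFunctionField (U0 ⊓ U1)) hab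
        have e : C.germToFunctionField U0 a = C.germToFunctionField U1 b :=
          (germToFunctionField_res inf_le_left a).symm.trans
            (hab'.trans (germToFunctionField_res inf_le_right b))
        obtain ⟨r, hr⟩ := mem_range_of_forall_mem c hf (z := C.germToFunctionField U0 a) fun x =>
          ((cover_regOpen c t).ge (Set.mem_univ x)).elim (fun h => germ_mem_ptRing c U0 a h)
            fun h => e ▸ germ_mem_ptRing c U1 b h
        refine ⟨r, C.germToFunctionField_injective U0 ?_⟩
        exact hr.symm.trans (RingHom.congr_fun (algebraMap_comp_constHom c hf U0) r).symm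
      smooth0 := by
        have : Smooth c := SmoothOfRelativeDimension.smooth 1 c
        exact smooth_constHom c hU0
      smooth1 := by
        have : Smooth c := SmoothOfRelativeDimension.smooth 1 c
        exact smooth_constHom c hU1
      cot0 := exists_cot c hU0 (ker_ne_bot_regOpen c hf hz0)
      cot1 := exists_cot c hU1 (ker_ne_bot_regOpen c hf hz) }
  have hε : (ε.1 (closedPoint k)) ∈ U1 := (mem_regOpen c).2
    ((congrArg (fun w => w ∈ ptRing c (ε.1 (closedPoint k))) hτ).mp (algebraMap_mem_ptRing c τ))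
  have hr : Set.range ε.1 ⊆ Set.range hU1.fromSpec := by
    rintro _ ⟨q, rfl⟩
    rw [hU1.range_fromSpec, show q = closedPoint k from Subsingleton.elim _ _]
    exact hε
  let φ := Spec.preimage (IsOpenImmersion.lift hU1.fromSpec ε.1 hr)
  have hφ : Spec.map φ ≫ hU1.fromSpec = ε.1 := by
    rw [Spec.map_preimage, IsOpenImmersion.lift_fac]
  have hφk : φ.hom.comp (constHom c U1) = RingHom.id k := by
    have h := ε.2
    rw [← hφ, Category.assoc, fromSpec_comp, ← Spec.map_comp, ← Spec.map_id] at h
    exact congrArg CommRingCat.Hom.hom (Spec.map_injective h)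
  refine ⟨{ X := X, i0 := hU0.fromSpec, i1 := hU1.fromSpec,
            open0 := inferInstanceAs (IsOpenImmersion hU0.fromSpec),
            open1 := inferInstanceAs (IsOpenImmersion hU1.fromSpec),
            over0 := fromSpec_comp c U0 hU0, over1 := fromSpec_comp c U1 hU1,
            overlap := ?_, cover := ?_,
            e := { φ.hom with commutes' := fun r => RingHom.congr_fun hφk r },
            e_y := ?_, e_spec := ?_ }⟩
  · refine (isPullback_opens_inf U0 U1).of_iso hU01.isoSpec hU0.isoSpec hU1.isoSpec (Iso.refl _)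
      ?_ ?_ ?_ ?_
    · rw [← cancel_mono hU0.fromSpec, Category.assoc, Category.assoc, hU0.isoSpec_hom_fromSpec,
        Scheme.homOfLE_ι]
      exact ((congrArg (hU01.isoSpec.hom ≫ ·)
        (hU0.map_fromSpec hU01 (homOfLE inf_le_left).op)).trans hU01.isoSpec_hom_fromSpec).symm
    · rw [← cancel_mono hU1.fromSpec, Category.assoc, Category.assoc, hU1.isoSpec_hom_fromSpec,
        Scheme.homOfLE_ι]
      exact ((congrArg (hU01.isoSpec.hom ≫ ·)
        (hU1.map_fromSpec hU01 (homOfLE inf_le_right).op)).trans hU01.isoSpec_hom_fromSpec).symm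
    · rw [Iso.refl_hom, Category.comp_id]; exact hU0.isoSpec_hom_fromSpec.symm
    · rw [Iso.refl_hom, Category.comp_id]; exact hU1.isoSpec_hom_fromSpec.symm
  · show Set.range hU0.fromSpec ∪ Set.range hU1.fromSpec = Set.univ
    rw [hU0.range_fromSpec, hU1.range_fromSpec]
    exact cover_regOpen c t
  · show φ.hom (regSec c t) = 0
    by_contra hne
    have h1 : closedPoint k ∈
        Spec.map φ ⁻¹' (PrimeSpectrum.basicOpen (regSec c t) : Set (PrimeSpectrum Γ(C, U1))) := by
      show regSec c t ∉ (Ideal.comap φ.hom (maximalIdeal k))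
      rw [Ideal.mem_comap, IsLocalRing.maximalIdeal_eq_bot, Ideal.mem_bot]
      exact hne
    have h2 : (ε.1 (closedPoint k)) ∈ C.basicOpen (regSec c t) := by
      have h3 : Spec.map φ (closedPoint k) ∈ hU1.fromSpec ⁻¹ᵁ C.basicOpen (regSec c t) := by
        rw [hU1.fromSpec_preimage_basicOpen]; exact h1
      have e : hU1.fromSpec (Spec.map φ (closedPoint k)) = (ε.1 (closedPoint k)) :=
        congrArg (fun m => m (closedPoint k)) hφ
      exact e ▸ h3
    rw [C.mem_basicOpen _ (ε.1 (closedPoint k)) hε] at h2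
    have e : C.presheaf.germ U1 (ε.1 (closedPoint k)) hε (regSec c t) = τ := by
      apply IsFractionRing.injective (C.presheaf.stalk (ε.1 (closedPoint k))) C.functionField
      rw [C.algebraMap_germ_eq_germToFunctionField, hτ, coe_regSec]
    exact (mem_maximalIdeal τ).1 hτm (e ▸ h2)
  · exact hφ

omit [Algebra k C.functionField] in
/-- **Every pointed smooth proper integral curve has a presentation.** -/
theorem exists_pres (ε : SchemeHomOver (𝟙 (Spec (CommRingCat.of k))) c) :
    Nonempty (Pres c ε) := by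
  let _ : Algebra k C.functionField := (Squeeze.baseMap c).toAlgebra
  have hcl : IsClosed ({ε.1 (closedPoint k)} : Set C) := by
    have : Smooth c := SmoothOfRelativeDimension.smooth 1 c
    exact (pointEquivClosedPoint c ⟨ε.1, ε.2⟩).2
  obtain ⟨t, τ, hτ, hτm, ht, hz⟩ := exists_uniformizer c rfl hcl
  exact exists_pres_of_uniformizer c rfl t ε ht hz τ hτ hτm

end FermatAgent.Pic.Mk

end
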