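import Fermat.Agent.AV.Basic.FunctionField

/-!
# Local rings of a smooth proper curve

Every local ring is a valuation ring of the function field, every valuation ring over the base is
one of them, and every point specialises to a closed point.
-/

set_option autoImplicit false

noncomputable section

open CategoryTheory AlgebraicGeometry TopologicalSpace IsLocalRing TensorProduct

universe u

namespace FermatAgent.Pic.Mk

open FermatAgent.AV

variable {k : Type u} [Field k] {C : Scheme.{u}} [IsIntegral C]
  (c : C ⟶ Spec (CommRingCat.of k))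

/-- The differentials of a rational local ring of a smooth algebra of dimension one. -/
theorem local_differential [IsAlgClosed k] (B O : Type u) [CommRing B] [Algebra k B]
    [Algebra.IsStandardSmoothOfRelativeDimension 1 k B] [CommRing O] [IsDomain O] [IsLocalRing O]
    [IsNoetherianRing O] [Algebra k O] [Algebra B O] [IsScalarTower k B O] (p : Ideal B)
    [p.IsMaximal] [IsLocalization.AtPrime O p] :
    (maximalIdeal O).IsPrincipal ∧
      ∀ t, maximalIdeal O = Ideal.span {t} → t ≠ 0 →
        Submodule.span O {KaehlerDifferential.D k O t} = ⊤ := by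
  have : Algebra.IsStandardSmooth k B :=
    Algebra.IsStandardSmoothOfRelativeDimension.isStandardSmooth 1
  have : IsNoetherianRing B := Algebra.FiniteType.isNoetherianRing k _
  have : Nontrivial B := (algebraMap B O).domain_nontrivial
  have : Algebra.FormallyEtale B O := Algebra.FormallyEtale.of_isLocalization p.primeCompl
  have : Algebra.FormallySmooth k O := Algebra.FormallySmooth.comp k B O
  let eΩ := KaehlerDifferential.tensorKaehlerEquivOfFormallyEtale k B O
  let bB := Module.Free.chooseBasis B Ω[B⁄k]
  let bO := (bB.baseChange O).map eΩ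
  have hrank : Module.finrank O Ω[O⁄k] = 1 := by
    rw [← eΩ.finrank_eq, Module.finrank_baseChange]
    exact Module.finrank_eq_of_rank_eq
      (Algebra.IsStandardSmoothOfRelativeDimension.rank_kaehlerDifferential 1)
  have : Module.Free O Ω[O⁄k] := Module.Free.of_basis bO
  have : Module.Finite O Ω[O⁄k] := Module.finite_of_finrank_eq_succ hrank
  -- the residue field is the base field
  have hbij : Function.Bijective (algebraMap k (ResidueField O)) :=
    bijective_algebraMap_residueField p O
  have : Algebra.FiniteType k (ResidueField O) :=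
    Algebra.FiniteType.of_surjective (Algebra.ofId k _) hbij.2
  have : Algebra.EssFiniteType k (ResidueField O) := inferInstance
  obtain ⟨l, hl⟩ := (Algebra.FormallySmooth.iff_split_injection (R := k) (P := O)
    (A := ResidueField O) IsLocalRing.residue_surjective).1 inferInstance
  let T := ResidueField O ⊗[O] Ω[O⁄k]
  have hT : Module.finrank (ResidueField O) T = 1 := by
    rw [Module.finrank_baseChange, hrank]
  have hker : RingHom.ker (algebraMap O (ResidueField O)) = maximalIdeal O :=
    Ideal.mk_ker
  let ψ : (maximalIdeal O).Cotangent →ₗ[O] T :=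
    (Ideal.mk_ker (I := maximalIdeal O)) ▸
      KaehlerDifferential.kerCotangentToTensor k O (ResidueField O)
  have hψ : ∀ (t : O) (ht : t ∈ maximalIdeal O),
      ψ ((maximalIdeal O).toCotangent ⟨t, ht⟩) = 1 ⊗ₜ KaehlerDifferential.D k O t := by
    have key : ∀ (I : Ideal O) (h : RingHom.ker (algebraMap O (ResidueField O)) = I) (t : O)
        (ht : t ∈ I), (h ▸ KaehlerDifferential.kerCotangentToTensor k O (ResidueField O) :
          I.Cotangent →ₗ[O] T) (I.toCotangent ⟨t, ht⟩) = 1 ⊗ₜ KaehlerDifferential.D k O t := by
      rintro I rfl t ht; rfl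
    exact key _ hker
  have hψinj : Function.Injective ψ := by
    have key : ∀ (I : Ideal O) (h : RingHom.ker (algebraMap O (ResidueField O)) = I),
        Function.Injective (h ▸ KaehlerDifferential.kerCotangentToTensor k O (ResidueField O) :
          I.Cotangent →ₗ[O] T) := by
      rintro I rfl
      exact Function.LeftInverse.injective fun z => LinearMap.congr_fun hl z
    exact key _ hker
  let ψ' : CotangentSpace O →ₗ[ResidueField O] T :=
    { toFun := ψ
      map_add' := ψ.map_add
      map_smul' := fun r z => by
        obtain ⟨r, rfl⟩ := IsLocalRing.residue_surjective r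
        exact (ψ.map_smul r z).trans (algebraMap_smul (ResidueField O) r (ψ z)).symm }
  have : Module.Finite (ResidueField O) T := Module.finite_of_finrank_eq_succ hT
  refine ⟨finrank_cotangentSpace_le_one_iff.1 ((LinearMap.finrank_le_finrank_of_injective
    (f := ψ') hψinj).trans_eq hT), fun t ht ht0 => ?_⟩
  have htm : t ∈ maximalIdeal O := ht ▸ Ideal.mem_span_singleton_self t
  have hne : (maximalIdeal O).toCotangent ⟨t, htm⟩ ≠ 0 := by
    rw [Ne, Ideal.toCotangent_eq_zero]
    show t ∉ maximalIdeal O ^ 2
    rw [ht, Ideal.span_singleton_pow, Ideal.mem_span_singleton]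
    rintro ⟨a, ha⟩
    have hdom : IsDomain O := inferInstance
    have h1 : (1 : O) = t * a := mul_left_cancel₀ ht0 (by
      show t * 1 = t * (t * a)
      rw [mul_one, ← mul_assoc, ← pow_two]; exact ha)
    exact (maximalIdeal.isMaximal O).ne_top
      (Ideal.eq_top_of_isUnit_mem _ htm (IsUnit.of_mul_eq_one a h1.symm))
  let b := Module.finBasisOfFinrankEq O Ω[O⁄k] hrank
  have hD : KaehlerDifferential.D k O t = b.repr (KaehlerDifferential.D k O t) 0 • b 0 := by
    conv_lhs => rw [← b.sum_repr (KaehlerDifferential.D k O t), Fin.sum_univ_one]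
  set r := b.repr (KaehlerDifferential.D k O t) 0
  have hr : IsUnit r := by
    by_contra h
    apply hne
    apply hψinj
    rw [hψ, map_zero, hD, ← TensorProduct.smul_tmul]
    have : r • (1 : ResidueField O) = 0 := by
      rw [Algebra.smul_def, mul_one]
      exact (IsLocalRing.residue_eq_zero_iff r).2 ((mem_maximalIdeal r).2 h)
    rw [this, TensorProduct.zero_tmul]
  rw [hD, Submodule.span_singleton_smul_eq hr]
  rw [eq_top_iff, ← b.span_eq]
  exact Submodule.span_mono (Set.range_subset_iff.2 fun i => by
    rw [Subsingleton.elim i 0]; exact Set.mem_singleton _)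

/-- The differentials of the local ring at a closed point and the cotangent space. -/
theorem stalk_differential [IsAlgClosed k] [SmoothOfRelativeDimension 1 c] {x : C}
    (hx : IsClosed ({x} : Set C)) [Algebra k (C.presheaf.stalk x)]
    (hk : algebraMap k (C.presheaf.stalk x) = stalkConst c x) :
    (maximalIdeal (C.presheaf.stalk x)).IsPrincipal ∧
      ∀ t, maximalIdeal (C.presheaf.stalk x) = Ideal.span {t} → t ≠ 0 →
        Submodule.span (C.presheaf.stalk x)
          {KaehlerDifferential.D k (C.presheaf.stalk x) t} = ⊤ := by
  obtain ⟨V, hV, hxV, hs⟩ := exists_chart_at c 1 x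
  let _ : Algebra k Γ(C, V) := (constHom c V).toAlgebra
  have : Algebra.IsStandardSmoothOfRelativeDimension 1 k Γ(C, V) := hs
  have : Algebra.IsStandardSmooth k Γ(C, V) :=
    Algebra.IsStandardSmoothOfRelativeDimension.isStandardSmooth 1
  have : IsNoetherianRing Γ(C, V) := Algebra.FiniteType.isNoetherianRing k _
  let _ : Algebra Γ(C, V) (C.presheaf.stalk x) := C.presheaf.algebra_section_stalk ⟨x, hxV⟩
  have : IsScalarTower k Γ(C, V) (C.presheaf.stalk x) :=
    IsScalarTower.of_algebraMap_eq' (hk.trans (germ_constHom c hxV).symm)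
  have : (hV.primeIdealOf ⟨x, hxV⟩).asIdeal.IsMaximal :=
    hV.primeIdealOf_isMaximal_of_isClosed ⟨x, hxV⟩ hx
  have : IsLocalization.AtPrime (C.presheaf.stalk x) (hV.primeIdealOf ⟨x, hxV⟩).asIdeal :=
    hV.isLocalization_stalk ⟨x, hxV⟩
  have : IsNoetherianRing (C.presheaf.stalk x) :=
    IsLocalization.isNoetherianRing (hV.primeIdealOf ⟨x, hxV⟩).asIdeal.primeCompl _ inferInstance
  exact local_differential Γ(C, V) (C.presheaf.stalk x) (hV.primeIdealOf ⟨x, hxV⟩).asIdeal

/-- A function regular at a specialisation is regular at the generalisation. -/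
theorem mem_range_of_specializes {x y : C} (h : y ⤳ x) {z : C.functionField}
    (hz : z ∈ (algebraMap (C.presheaf.stalk x) C.functionField).range) :
    z ∈ (algebraMap (C.presheaf.stalk y) C.functionField).range := by
  obtain ⟨t, rfl⟩ := hz
  refine ⟨C.presheaf.stalkSpecializes h t, ?_⟩
  have e := TopCat.Presheaf.stalkSpecializes_comp C.presheaf
    ((genericPoint_spec C).specializes (trivial : y ∈ Set.univ)) h
  exact congrArg (fun m => m.hom t) e

variable [IsAlgClosed k] [SmoothOfRelativeDimension 1 c]

include c in
theorem stalk_valuationRing_of_isClosed {x : C} (hx : IsClosed ({x} : Set C)) :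
    ValuationRing (C.presheaf.stalk x) := by
  obtain ⟨V, hV, hxV, -⟩ := exists_isAffineOpen_mem_and_subset (Opens.mem_top x)
  have : Smooth c := SmoothOfRelativeDimension.smooth 1 c
  have : IsLocallyNoetherian C := LocallyOfFiniteType.isLocallyNoetherian c
  let _ : Algebra k (C.presheaf.stalk x) := (stalkConst c x).toAlgebra
  have h := (stalk_differential c hx rfl).1
  exact ((tfae_of_isNoetherianRing_of_isLocalRing_of_isDomain (C.presheaf.stalk x)).out 4 1).1 h

omit [IsIntegral C] [IsAlgClosed k] in
include c in
/-- Every point specialises to a closed point. -/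
theorem exists_closed_specialization (y : C) : ∃ x : C, y ⤳ x ∧ IsClosed ({x} : Set C) := by
  have : Smooth c := SmoothOfRelativeDimension.smooth 1 c
  have : JacobsonSpace C := LocallyOfFiniteType.jacobsonSpace c
  obtain ⟨x, hx, hxc⟩ := nonempty_inter_closedPoints
    (show (closure ({y} : Set C)).Nonempty from ⟨y, subset_closure rfl⟩)
    isClosed_closure.isLocallyClosed
  exact ⟨x, specializes_iff_mem_closure.2 hx, hxc⟩

include c in
theorem mem_or_inv_mem_range (y : C) (z : C.functionField) :
    z ∈ (algebraMap (C.presheaf.stalk y) C.functionField).range ∨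
      z⁻¹ ∈ (algebraMap (C.presheaf.stalk y) C.functionField).range := by
  obtain ⟨x, hyx, hx⟩ := exists_closed_specialization c y
  have := stalk_valuationRing_of_isClosed c hx
  have h : ValuationRing (C.presheaf.stalk x) := this
  refine (ValuationRing.isInteger_or_isInteger (C.presheaf.stalk x) z).imp ?_ ?_ <;>
    exact fun hz => mem_range_of_specializes hyx hz

/-- The local ring at a point as a valuation subring of the function field. -/
def ptRing (x : C) : ValuationSubring C.functionField :=
  ValuationSubring.ofSubring (algebraMap (C.presheaf.stalk x) C.functionField).range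
    (mem_or_inv_mem_range c x)

/-- The local ring at a point as a valuation ring consists of the regular functions there. -/
theorem mem_ptRing {x : C} {z : C.functionField} :
    z ∈ ptRing c x ↔ ∃ t : C.presheaf.stalk x, algebraMap _ C.functionField t = z := Iff.rfl

/-- Germs lie in the local ring. -/
theorem algebraMap_mem_ptRing {x : C} (t : C.presheaf.stalk x) :
    algebraMap _ C.functionField t ∈ ptRing c x := ⟨t, rfl⟩

/-- A germ with regular inverse is a unit. -/
theorem isUnit_of_algebraMap_inv_mem {x : C} {t : C.presheaf.stalk x} (ht : t ≠ 0)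
    (h : (algebraMap _ C.functionField t)⁻¹ ∈ ptRing c x) : IsUnit t := by
  obtain ⟨s, hs⟩ := (mem_ptRing c).1 h
  have h0 : algebraMap _ C.functionField t ≠ 0 :=
    (map_ne_zero_iff _ (IsFractionRing.injective _ _)).2 ht
  refine IsUnit.of_mul_eq_one s (IsFractionRing.injective _ C.functionField ?_)
  rw [map_mul, map_one, hs, mul_inv_cancel₀ h0]

theorem mem_nonunits_ptRing {x : C} {t : C.presheaf.stalk x}
    (ht : t ∈ maximalIdeal (C.presheaf.stalk x)) :
    algebraMap _ C.functionField t ∈ (ptRing c x).nonunits := by
  rw [ValuationSubring.mem_nonunits_iff_exists_mem_maximalIdeal]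
  refine ⟨algebraMap_mem_ptRing c t, (mem_maximalIdeal _).2 fun hu => ?_⟩
  obtain ⟨s, hs⟩ := hu.exists_right_inv
  obtain ⟨s', hs'⟩ := (mem_ptRing c).1 s.2
  have h1 : t * s' = 1 := IsFractionRing.injective _ C.functionField (by
    rw [map_mul, map_one, hs']; exact congrArg Subtype.val hs)
  exact (mem_maximalIdeal t).1 ht (IsUnit.of_mul_eq_one s' h1)

theorem isCentre_ptRing (x : C) : Squeeze.IsCentre (ptRing c x) x :=
  ⟨fun t => algebraMap_mem_ptRing c t, fun _ ht => mem_nonunits_ptRing c ht⟩

/-- A point of a separated curve is determined by its local ring in the function field. -/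
theorem ptRing_injective [IsSeparated c] : Function.Injective (ptRing c) := fun x y h =>
  Squeeze.centre_unique c (isCentre_ptRing c x) (h ▸ isCentre_ptRing c y)

/-- Every valuation ring of the function field over the constants is the local ring of a point. -/
theorem exists_ptRing_eq [UniversallyClosed c] (W : ValuationSubring C.functionField)
    (hW : ∀ r, Squeeze.baseMap c r ∈ W) : ∃ x : C, ptRing c x = W := by
  obtain ⟨x, h1, h2⟩ := Squeeze.exists_centre c W hW
  refine ⟨x, le_antisymm (fun z hz => ?_) fun z hz => ?_⟩
  · obtain ⟨t, rfl⟩ := (mem_ptRing c).1 hz; exact h1 t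
  · by_cases h0 : z = 0
    · rw [h0]; exact zero_mem _
    refine ((ptRing c x).mem_or_inv_mem z).elim id fun hi => ?_
    obtain ⟨t, ht⟩ := (mem_ptRing c).1 hi
    by_cases hu : IsUnit t
    · obtain ⟨s, hs⟩ := hu.exists_right_inv
      refine ⟨s, ?_⟩
      rw [← inv_inv z, ← ht]
      exact eq_inv_of_mul_eq_one_right (by rw [← map_mul, hs, map_one])
    · exfalso
      have hn := h2 t ((mem_maximalIdeal t).2 hu)
      rw [ht, ValuationSubring.mem_nonunits_iff, map_inv₀,
        inv_lt_one₀ (zero_lt_iff.2 ((Valuation.ne_zero_iff _).2 h0))] at hn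
      exact absurd ((W.valuation_le_one_iff z).2 hz) (not_le.2 hn)

/-- The local rings contain the constants. -/
theorem baseMap_mem_ptRing (x : C) (r : k) : Squeeze.baseMap c r ∈ ptRing c x := by
  refine (mem_ptRing c).2 ⟨stalkConst c x r, ?_⟩
  rw [← stalkConst_genericPoint]
  have : Nonempty (⊤ : C.Opens) := ⟨⟨x, trivial⟩⟩
  exact C.algebraMap_germ_eq_germToFunctionField (U := ⊤) (x := x) trivial _

end FermatAgent.Pic.Mk

end
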