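import Fermat.Agent.Pic.Mk.Local
import Fermat.Agent.Curve.Integral

/-!
# Sections and closed points of a smooth proper curve in terms of valuations

A rational function without poles on an open set is a section there, the non-generic points are
closed, and a proper closed subset is finite.
-/

set_option autoImplicit false

noncomputable section

open CategoryTheory AlgebraicGeometry TopologicalSpace IsLocalRing Opposite

universe u

namespace FermatAgent.Pic.Mk

open FermatAgent.AV

variable {k : Type u} [Field k] [IsAlgClosed k] {C : Scheme.{u}} [IsIntegral C]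
  (c : C ⟶ Spec (CommRingCat.of k)) [SmoothOfRelativeDimension 1 c]

/-- A section is regular at every point of its open. -/
theorem germ_mem_ptRing (U : C.Opens) [Nonempty U] (s : Γ(C, U)) {x : C} (hx : x ∈ U) :
    C.germToFunctionField U s ∈ ptRing c x :=
  ⟨C.presheaf.germ U x hx s, C.algebraMap_germ_eq_germToFunctionField hx s⟩

/-- The germ of a restricted section at the generic point is unchanged. -/
theorem germToFunctionField_res {U V : C.Opens} [Nonempty U] [Nonempty V] (h : V ≤ U)
    (s : Γ(C, U)) :
    C.germToFunctionField V (C.presheaf.map (homOfLE h).op s) = C.germToFunctionField U s :=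
  congrArg (fun m => m.hom s) (C.presheaf.germ_res (homOfLE h) (genericPoint C) _)

/-- The open set where a rational function is regular. -/
def regOpen (z : C.functionField) : C.Opens :=
  ⟨{x | z ∈ ptRing c x}, isOpen_iff_forall_mem_open.2 fun x hx => by
    obtain ⟨t, ht⟩ := (mem_ptRing c).1 hx
    obtain ⟨U, hxU, s, hs⟩ := TopCat.Presheaf.exists_germ_eq C.presheaf t
    have : Nonempty U := ⟨⟨x, hxU⟩⟩
    refine ⟨U, fun y hy => ?_, U.isOpen, hxU⟩
    have e : z = C.germToFunctionField U s := by
      rw [← ht, ← hs]
      exact C.algebraMap_germ_eq_germToFunctionField hxU s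
    exact e ▸ germ_mem_ptRing c U s hy⟩

/-- A point is in the regular locus iff the function is regular there. -/
theorem mem_regOpen {z : C.functionField} {x : C} : x ∈ regOpen c z ↔ z ∈ ptRing c x := Iff.rfl

/-- The local ring at the generic point is the function field. -/
theorem ptRing_genericPoint : ptRing c (genericPoint C) = ⊤ := by
  refine top_le_iff.1 fun z _ => (mem_ptRing c).2 ⟨z, ?_⟩
  show C.presheaf.stalkSpecializes _ z = z
  rw [TopCat.Presheaf.stalkSpecializes_refl]
  rfl

/-- Every function is regular at the generic point. -/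
theorem genericPoint_mem_regOpen (z : C.functionField) : genericPoint C ∈ regOpen c z := by
  rw [mem_regOpen, ptRing_genericPoint]; exact ValuationSubring.mem_top z

instance (z : C.functionField) : Nonempty (regOpen c z) :=
  ⟨⟨genericPoint C, genericPoint_mem_regOpen c z⟩⟩

/-- A rational function without poles on an open set is a section there. -/
theorem exists_section (U : C.Opens) [Nonempty U] {z : C.functionField}
    (h : ∀ x ∈ U, z ∈ ptRing c x) : ∃ s : Γ(C, U), C.germToFunctionField U s = z := by
  classical
  have h' : ∀ x : U, ∃ (W : C.Opens) (_ : (x : C) ∈ W) (_ : W ≤ U) (_ : Nonempty W) (s : Γ(C, W)),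
      C.germToFunctionField W s = z := by
    rintro ⟨x, hx⟩
    obtain ⟨t, ht⟩ := (mem_ptRing c).1 (h x hx)
    obtain ⟨W, hxW, s, hs⟩ := TopCat.Presheaf.exists_germ_eq C.presheaf t
    have : Nonempty W := ⟨⟨x, hxW⟩⟩
    have : Nonempty (W ⊓ U : C.Opens) := ⟨⟨x, hxW, hx⟩⟩
    refine ⟨W ⊓ U, ⟨hxW, hx⟩, inf_le_right, this,
      C.presheaf.map (homOfLE inf_le_left).op s, ?_⟩
    rw [germToFunctionField_res, ← ht, ← hs]
    exact (C.algebraMap_germ_eq_germToFunctionField hxW s).symm
  choose W hxW hWU hne s hs using h'
  have hcompat : TopCat.Presheaf.IsCompatible C.sheaf.1 W s := by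
    intro i j
    have hη : genericPoint C ∈ W i ⊓ W j :=
      ⟨((genericPoint_spec C).mem_open_set_iff (W i).isOpen).2 ⟨i, trivial, hxW i⟩,
        ((genericPoint_spec C).mem_open_set_iff (W j).isOpen).2 ⟨j, trivial, hxW j⟩⟩
    have : Nonempty (W i ⊓ W j : C.Opens) := ⟨⟨_, hη⟩⟩
    have := hne i
    have := hne j
    refine C.germToFunctionField_injective (W i ⊓ W j) ?_
    exact (germToFunctionField_res inf_le_left (s i)).trans
      ((hs i).trans ((hs j).symm.trans (germToFunctionField_res inf_le_right (s j)).symm))
  obtain ⟨g, hg, -⟩ := C.sheaf.existsUnique_gluing' W U (fun i => homOfLE (hWU i))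
    (fun x hx => Opens.mem_iSup.2 ⟨⟨x, hx⟩, hxW ⟨x, hx⟩⟩) s hcompat
  refine ⟨g, ?_⟩
  obtain ⟨i⟩ := ‹Nonempty U›
  have := hne i
  rw [← hs i, ← hg i]
  exact (germToFunctionField_res (hWU i) g).symm

variable [IsProper c] [Algebra k C.functionField]
  (hf : algebraMap k C.functionField = Squeeze.baseMap c)

omit [IsProper c] in
include hf in
/-- The local rings contain the constants. -/
theorem algebraMap_mem_ptRing' (x : C) (r : k) : algebraMap k C.functionField r ∈ ptRing c x := by
  rw [hf]; exact baseMap_mem_ptRing c x r

include hf in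
/-- A rational function integral at all valuations over a subring of constants is integral. -/
theorem mem_range_of_forall_mem {z : C.functionField} (h : ∀ x, z ∈ ptRing c x) :
    z ∈ (algebraMap k C.functionField).range := by
  have hi : IsIntegral k z :=
      FermatAgent.Curve.isIntegralElem_of_forall_valuationSubring _ fun W hW => by
    obtain ⟨x, hx⟩ := exists_ptRing_eq c W fun r => RingHom.congr_fun hf r ▸ hW r
    exact hx ▸ h x
  exact hi.mem_range_algebraMap_of_minpoly_splits (IsAlgClosed.splits _)

include hf in
theorem D_eq_zero_of_forall_mem {z : C.functionField} (h : ∀ x, z ∈ ptRing c x) :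
    KaehlerDifferential.D k C.functionField z = 0 := by
  obtain ⟨r, rfl⟩ := mem_range_of_forall_mem c hf h
  exact Derivation.map_algebraMap _ r

include hf in
/-- The generic point is not closed. -/
theorem not_isClosed_genericPoint : ¬ IsClosed ({genericPoint C} : Set C) := by
  intro hη
  have huniv : ∀ y : C, y = genericPoint C := fun y =>
    Set.mem_singleton_iff.1 (Specializes.mem_closed
      ((genericPoint_spec C).specializes (trivial : y ∈ Set.univ)) hη (Set.mem_singleton _))
  have h0 : Subsingleton Ω[C.functionField⁄k] := by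
    refine subsingleton_of_forall_eq 0 fun w => ?_
    have hw : w ∈ Submodule.span C.functionField
        (Set.range (KaehlerDifferential.D k C.functionField)) := by
      rw [KaehlerDifferential.span_range_derivation]; trivial
    induction hw using Submodule.span_induction with
    | mem v hv =>
      obtain ⟨z, rfl⟩ := hv
      exact D_eq_zero_of_forall_mem c hf fun x => by
        rw [huniv x, ptRing_genericPoint]; exact ValuationSubring.mem_top z
    | zero => rfl
    | add _ _ _ _ a b => rw [a, b, add_zero]
    | smul r _ _ a => rw [a, smul_zero]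
  have := finrank_kaehler_functionField c hf 1
  rw [Module.finrank_zero_of_subsingleton] at this
  exact absurd this (by norm_num)

omit [IsProper c] [Algebra k C.functionField] in
/-- Two local rings, one contained in the other, at a closed point. -/
theorem eq_top_of_lt_ptRing {x : C} (hx : IsClosed ({x} : Set C))
    {V : ValuationSubring C.functionField} (h : ptRing c x ≤ V) (hne : V ≠ ptRing c x) : V = ⊤ := by
  have : Smooth c := SmoothOfRelativeDimension.smooth 1 c
  have : IsLocallyNoetherian C := LocallyOfFiniteType.isLocallyNoetherian c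
  let _ : Algebra k (C.presheaf.stalk x) := (stalkConst c x).toAlgebra
  obtain ⟨τ, hτ⟩ := (stalk_differential c hx rfl).1
  replace hτ : maximalIdeal (C.presheaf.stalk x) = Ideal.span {τ} := hτ
  have hτm : τ ∈ maximalIdeal (C.presheaf.stalk x) := hτ ▸ Ideal.mem_span_singleton_self τ
  -- a function regular on `V` and not at `x`
  obtain ⟨z, hzV, hzx⟩ : ∃ z, z ∈ V ∧ z ∉ ptRing c x := by
    by_contra hcon
    push Not at hcon
    exact hne (le_antisymm hcon h)
  obtain ⟨s, hs⟩ := (mem_ptRing c).1 (((ptRing c x).mem_or_inv_mem z).resolve_left hzx)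
  have hsm : s ∈ maximalIdeal (C.presheaf.stalk x) := by
    refine (mem_maximalIdeal s).2 fun hu => hzx ?_
    obtain ⟨s', hs'⟩ := hu.exists_right_inv
    refine (mem_ptRing c).2 ⟨s', ?_⟩
    rw [← inv_inv z, ← hs]
    exact eq_inv_of_mul_eq_one_right (by rw [← map_mul, hs', map_one])
  rw [hτ, Ideal.mem_span_singleton] at hsm
  obtain ⟨s₁, rfl⟩ := hsm
  have hz0 : z ≠ 0 := fun h0 => hzx (h0 ▸ zero_mem _)
  have hτi : (algebraMap _ C.functionField τ)⁻¹ ∈ V := by
    have e : (algebraMap _ C.functionField τ)⁻¹ = z * algebraMap _ C.functionField s₁ := by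
      refine inv_eq_of_mul_eq_one_right ?_
      rw [mul_left_comm, ← map_mul, hs, mul_inv_cancel₀ hz0]
    exact e ▸ mul_mem hzV (h (algebraMap_mem_ptRing c s₁))
  refine top_le_iff.1 fun w _ => ?_
  obtain ⟨a, b, hb, rfl⟩ := IsFractionRing.div_surjective (A := C.presheaf.stalk x) w
  obtain ⟨b₁, hbe, hb₁⟩ := FiniteMultiplicity.exists_eq_pow_mul_and_not_dvd
    (FiniteMultiplicity.of_not_isUnit ((mem_maximalIdeal τ).1 hτm) (nonZeroDivisors.ne_zero hb))
  have hu : IsUnit b₁ := by_contra fun hu => hb₁ (Ideal.mem_span_singleton.1
    (hτ ▸ (mem_maximalIdeal b₁).2 hu))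
  obtain ⟨b₂, hb₂⟩ := hu.exists_right_inv
  rw [hbe, map_mul, map_pow, div_eq_mul_inv, mul_inv, ← inv_pow,
    show (algebraMap _ C.functionField b₁)⁻¹ = algebraMap _ C.functionField b₂ from
      inv_eq_of_mul_eq_one_right (by rw [← map_mul, hb₂, map_one])]
  exact mul_mem (h (algebraMap_mem_ptRing c a))
    (mul_mem (pow_mem hτi _) (h (algebraMap_mem_ptRing c b₂)))

omit [Algebra k C.functionField] in
include c in
/-- Every point other than the generic one is closed. -/
theorem isClosed_of_ne_genericPoint {y : C} (hy : y ≠ genericPoint C) :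
    IsClosed ({y} : Set C) := by
  obtain ⟨x, hyx, hx⟩ := exists_closed_specialization c y
  have h : ptRing c x ≤ ptRing c y := fun z hz => mem_range_of_specializes hyx hz
  by_cases he : ptRing c y = ptRing c x
  · exact (ptRing_injective c he) ▸ hx
  · refine absurd (ptRing_injective c ?_) hy
    rw [eq_top_of_lt_ptRing c hx h he, ptRing_genericPoint]

omit [Algebra k C.functionField] in
include c in
/-- A proper closed subset is finite. -/
theorem finite_of_isClosed {Z : Set C} (hZ : IsClosed Z) (hη : genericPoint C ∉ Z) : Z.Finite := by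
  have : Smooth c := SmoothOfRelativeDimension.smooth 1 c
  have : IsLocallyNoetherian C := LocallyOfFiniteType.isLocallyNoetherian c
  have : CompactSpace C := QuasiCompact.compactSpace_of_compactSpace c
  have : IsNoetherian C := {}
  obtain ⟨S, hS, hSc, hSi, rfl⟩ := NoetherianSpace.exists_finite_set_isClosed_irreducible hZ
  refine hS.sUnion fun T hT => ?_
  obtain ⟨p, hp⟩ := QuasiSober.sober (hSi T hT) (hSc T hT)
  have hpT : p ∈ T := hp.mem
  have hp' : p ≠ genericPoint C := fun e => hη ⟨T, hT, e ▸ hpT⟩
  rw [← hp.def, (isClosed_of_ne_genericPoint c hp').closure_eq]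
  exact Set.finite_singleton p

end FermatAgent.Pic.Mk

end
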